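import Fermat.Agent.S19x.Geo.L1B.ModSetting
import Fermat.Agent.S19x.Geo.LatticeFixed
import Fermat.Agent.S19x.Geo.FixDataInertiaB
import Fermat.Agent.S19x.Geo.FixDataInertiaSpan
import Fermat.Agent.S19x.Geo.ScalFixed
import Fermat.Agent.Gateway.Red.Assembly

/-!
# P-S19, BLOCK A, (L1) backup (helper23): `exists_setting`

The final export of (L1) in the literal shape asked for by the architect of BLOCK A (helper22,
msg 18183): at a good level `M`, for a valuation subring `P` of `ℚ̄` over `ℓ ∤ M`, there are a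
geometric setting `G`, inertia data `I` and a reduction map `ρ` such that the inertia group of `P`
acts through `I.S`, with the fixed-lattice data `FixData` and the spanning property of the fixed
functions.

Concrete versions (with the terms `modSetting`, `modInertia`, `modRedMap` of
`Geo/L1B/ModSetting.lean`): `fixData_modInertia`, `span_fixed_modInertia`.
-/

set_option autoImplicit false
set_option linter.unusedSectionVars false
set_option linter.style.haveILetI false
set_option linter.unusedVariables false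
set_option synthInstance.maxHeartbeats 400000
set_option maxHeartbeats 1600000

noncomputable section

namespace Fermat.Agent.S19x.Geo.L1B

open ModularCurve AlgebraicCurve IntermediateField IsLocalRing
open Fermat.Agent.Gateway Fermat.Agent.Gateway.GoodRed Fermat.Agent.S19x.Geo

local notation "Qbar" => AlgebraicClosure ℚ

section Concrete

variable (M ℓ : ℕ) [NeZero M] [Fact ℓ.Prime] (A : ValuationSubring Qbar)
  [CharP (ResidueField A) ℓ] [IsAlgClosed (ResidueField A)]
  (hℓM : ¬ ℓ ∣ M) (hgood : (ℓ ≠ 2 ∧ 4 ∣ M) ∨ (ℓ = 2 ∧ 9 ∣ M)) (hA : A.LiesOverPrime ℓ)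

/-- **`FixData` for inertia at a good level.** -/
theorem fixData_modInertia :
    LatticeFixed.FixData (modSetting M ℓ A hℓM hgood hA).R
      ((modInertia M ℓ A hℓM hgood hA).S : Set (SemilinearAut Qbar (FBar Qbar M))) := by
  refine FixDataInertiaB.fixData_arithmeticGalois (modularFunctionFieldFull M)
    (modSetting M ℓ A hℓM hgood hA).R (Fact.out : ℓ.Prime) hA ?_
  intro f hf hfix
  exact ScalFixed.scal_fixed_semilinear A (residue A) ℓ M residue_surjective hℓM
    (A.inertiaSubgroupIn ℚ : Set (Qbar ≃ₐ[ℚ] Qbar)) f hf hfix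

/-- **the fixed functions span** -/
theorem span_fixed_modInertia :
    Submodule.span Qbar {f : FBar Qbar M | LatticeFixed.IsFixed
      ((modInertia M ℓ A hℓM hgood hA).S : Set (SemilinearAut Qbar (FBar Qbar M))) f} = ⊤ := by
  haveI : Algebra.IsAlgebraic ℚ Qbar := AlgebraicClosure.isAlgebraic ℚ
  refine FixDataInertiaSpan.span_fixed_eq_top _ ?_
  rintro _ ⟨σ, -, rfl⟩
  exact ⟨σ, rfl⟩

end Concrete

/-- **(L1), final export.** -/
theorem exists_setting (M : ℕ) [NeZero M] (ℓ : ℕ) [Fact ℓ.Prime] (hℓM : ¬ ℓ ∣ M)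
    (hgood : Gateway.Red.IsGoodLevel M ℓ) (P : ValuationSubring Qbar) (hP : P.LiesOverPrime ℓ) :
    ∃ (k κ : Type) (_ : Field k) (_ : Field κ) (_ : Algebra k κ) (_ : IsAlgClosed k)
      (O : ValuationSubring (modularFunctionFieldBar M))
      (_ : HasPrincipalDivisors Qbar (modularFunctionFieldBar M))
      (_ : ∀ v : Place Qbar (modularFunctionFieldBar M), v.FiniteResidue)
      (_ : HasPrincipalDivisors k κ) (_ : ∀ v : Place k κ, v.FiniteResidue)
      (G : GeoSetting P O k κ) (I : InertiaData G) (ρ : RedMap G),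
      (∀ σ ∈ P.inertiaSubgroupIn ℚ, arithmeticGalois (modularFunctionFieldFull M) σ ∈ I.S) ∧
        LatticeFixed.FixData G.R
          (I.S : Set (SemilinearAut Qbar (modularFunctionFieldBar M))) ∧
        Submodule.span Qbar {f : modularFunctionFieldBar M | LatticeFixed.IsFixed
          (I.S : Set (SemilinearAut Qbar (modularFunctionFieldBar M))) f} = ⊤ := by
  haveI := ES.charP_residueField_of_liesOverPrime P hP
  haveI : IsAlgClosed (ResidueField P) := ES.isAlgClosed_residueField P
  have hsF := RRBundle.sepBundle_FBar Qbar M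
  have hsκ := RRBundle.sepBundle_Fk_residue M ℓ hℓM P hP
  exact ⟨ResidueField P, modularFunctionFieldFullC (ResidueField P) M, inferInstance,
    inferInstance, inferInstance, inferInstance, OO M ℓ P hℓM,
    hsF.hasPrincipalDivisors, hsF.finiteResidue, hsκ.hasPrincipalDivisors, hsκ.finiteResidue,
    modSetting M ℓ P hℓM hgood hP, modInertia M ℓ P hℓM hgood hP, modRedMap M ℓ P hℓM hgood hP,
    fun σ hσ => mem_inertiaS_of_mem M P hσ,
    fixData_modInertia M ℓ P hℓM hgood hP, span_fixed_modInertia M ℓ P hℓM hgood hP⟩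

/-- **(L1), final export, with the triviality of inertia after reduction** (the same witnesses as
`exists_setting`). -/
theorem exists_setting_red (M : ℕ) [NeZero M] (ℓ : ℕ) [Fact ℓ.Prime] (hℓM : ¬ ℓ ∣ M)
    (hgood : Gateway.Red.IsGoodLevel M ℓ) (P : ValuationSubring Qbar) (hP : P.LiesOverPrime ℓ) :
    ∃ (k κ : Type) (_ : Field k) (_ : Field κ) (_ : Algebra k κ) (_ : IsAlgClosed k)
      (O : ValuationSubring (modularFunctionFieldBar M))
      (_ : HasPrincipalDivisors Qbar (modularFunctionFieldBar M))
      (_ : ∀ v : Place Qbar (modularFunctionFieldBar M), v.FiniteResidue)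
      (_ : HasPrincipalDivisors k κ) (_ : ∀ v : Place k κ, v.FiniteResidue)
      (G : GeoSetting P O k κ) (I : InertiaData G) (ρ : RedMap G),
      (∀ σ ∈ P.inertiaSubgroupIn ℚ, arithmeticGalois (modularFunctionFieldFull M) σ ∈ I.S) ∧
        LatticeFixed.FixData G.R
          (I.S : Set (SemilinearAut Qbar (modularFunctionFieldBar M))) ∧
        Submodule.span Qbar {f : modularFunctionFieldBar M | LatticeFixed.IsFixed
          (I.S : Set (SemilinearAut Qbar (modularFunctionFieldBar M))) f} = ⊤ ∧
        (∀ σ ∈ P.inertiaSubgroupIn ℚ, ∀ x : JZero M, ρ.red (σ • x) = ρ.red x) ∧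
        (∀ s ∈ I.S, ∃ σ ∈ P.inertiaSubgroupIn ℚ,
          s = arithmeticGalois (modularFunctionFieldFull M) σ) := by
  haveI := ES.charP_residueField_of_liesOverPrime P hP
  haveI : IsAlgClosed (ResidueField P) := ES.isAlgClosed_residueField P
  have hsF := RRBundle.sepBundle_FBar Qbar M
  have hsκ := RRBundle.sepBundle_Fk_residue M ℓ hℓM P hP
  exact ⟨ResidueField P, modularFunctionFieldFullC (ResidueField P) M, inferInstance,
    inferInstance, inferInstance, inferInstance, OO M ℓ P hℓM,
    hsF.hasPrincipalDivisors, hsF.finiteResidue, hsκ.hasPrincipalDivisors, hsκ.finiteResidue,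
    modSetting M ℓ P hℓM hgood hP, modInertia M ℓ P hℓM hgood hP, modRedMap M ℓ P hℓM hgood hP,
    fun σ hσ => mem_inertiaS_of_mem M P hσ,
    fixData_modInertia M ℓ P hℓM hgood hP, span_fixed_modInertia M ℓ P hℓM hgood hP,
    fun σ hσ x => red_inertia_smul M ℓ P hℓM hgood hP hσ x,
    fun s hs => by obtain ⟨σ, hσ, rfl⟩ := hs; exact ⟨σ, hσ, rfl⟩⟩

end Fermat.Agent.S19x.Geo.L1B
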