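import Fermat.Agent.S19x.Geo.L1B.ExistsSetting
import Fermat.Agent.S19x.Geo.AMainTargets

/-!
# P-S19, BLOCK A, (L1): `L1Target` (independent second proof, helper23)

`Geo/AMainTargets.L1Target` from `Geo/L1B/ExistsSetting.exists_setting` (written directly against
the Gateway; independent of `Geo/RedIface.lean` / `Geo/RedIfaceL1.lean`).
-/

set_option autoImplicit false

namespace Fermat.Agent.S19x.Geo.L1B

/-- **`L1Target`**, second proof. -/
theorem l1TargetB : Fermat.Agent.S19x.Geo.L1Target :=
  fun M _ ℓ _ hℓM hgood P hP => exists_setting M ℓ hℓM hgood P hP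

end Fermat.Agent.S19x.Geo.L1B
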