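import Fermat.Agent.S19x.Geo.Setting
import Fermat.Agent.S19x.Geo.Targets
import Fermat.Agent.S19x.Geo.RRBundleInst
import Fermat.Agent.S19x.Geo.CuspOo
import Fermat.Agent.S19x.Geo.GaussGalois
import Fermat.Agent.Gateway.Red.ModularGlue
import Fermat.Agent.Gateway.Red.ModularFiltered
import Fermat.Agent.Gateway.Red.GoodFactsProved
import Fermat.Agent.Gateway.Red.ReductionInputs
import Fermat.Agent.Gateway.ES.S37Inputs
import Fermat.Agent.Gateway.C0.GaussSetup

/-!
# P-S19, BLOCK A, (L1) backup (helper23): the geometric setting at a good level, directly from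
the Gateway

For a good level `M` (`4 ∣ M` for odd `ℓ`, `9 ∣ M` for `ℓ = 2`, `ℓ ∤ M`) and a valuation subring
`A` of `ℚ̄` over `ℓ`:

* `modSetting`  : the `GeoSetting A (OvVal …) k_A (modularFunctionFieldFullC k_A M)` of the Gauss
  valuation, with `sp := Red.modularGlueRed`, `oo := CuspOo.ooPlace`;
* `modInertia`  : the `InertiaData` of the image of the inertia group of `A` under the arithmetic
  Galois action;
* `modRedMap`   : the `RedMap` given by `reductionPic0Along sp`;
* `mem_modInertia_S` : inertia elements act through `S`.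

(Dictionary: helper29's note `S19-DICT-RedIface`.)
-/

set_option autoImplicit false
set_option linter.unusedSectionVars false
set_option linter.style.haveILetI false
set_option synthInstance.maxHeartbeats 400000
set_option maxHeartbeats 1600000

noncomputable section

namespace Fermat.Agent.S19x.Geo.L1B

open ModularCurve AlgebraicCurve IntermediateField IsLocalRing
open Fermat.Agent.Gateway Fermat.Agent.Gateway.GoodRed Fermat.Agent.S19x.Geo

local notation "Qb" => AlgebraicClosure ℚ

variable (M ℓ : ℕ) [NeZero M] [Fact ℓ.Prime] (A : ValuationSubring Qb)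
  [CharP (ResidueField A) ℓ] [IsAlgClosed (ResidueField A)]
  (hℓM : ¬ ℓ ∣ M) (hgood : (ℓ ≠ 2 ∧ 4 ∣ M) ∨ (ℓ = 2 ∧ 9 ∣ M)) (hA : A.LiesOverPrime ℓ)

local notation "kA" => ResidueField A
local notation "πA" => residue A

/-- the Gauss valuation ring -/
abbrev OO : ValuationSubring (FBar Qb M) := OvVal A πA M ℓ residue_surjective hℓM

include hgood hA in
/-- the level facts -/
theorem levelFacts : C0.GoodLevelFacts A πA M ℓ residue_surjective hℓM :=
  Red.goodFacts M ℓ hℓM hgood A hA

include hgood hA in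
/-- `j` is a filtered chart -/
theorem filtered :
    (Red.modularRedBase A πA ℓ M residue_surjective hℓM).IsFilteredChart (HK1.jL Qb M) :=
  Red.isFilteredChart_jL A πA ℓ M residue_surjective hℓM hA (levelFacts M ℓ A hℓM hgood hA)

/-- the specialisation of places -/
def sp : Place Qb (FBar Qb M) → Place kA (modularFunctionFieldFullC kA M) :=
  Red.modularGlueRed A πA ℓ M residue_surjective hℓM (filtered M ℓ A hℓM hgood hA)

/-- the reduction setup of the Gauss valuation -/
def RS : C0.RedSetup A (OO M ℓ A hℓM) kA (modularFunctionFieldFullC kA M) :=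
  haveI : Algebra.IsAlgebraic ℚ Qb := AlgebraicClosure.isAlgebraic ℚ
  C0.gaussRedSetup A πA M ℓ residue_surjective hℓM hA

theorem RS_res : (RS M ℓ A hℓM hA).res = resFk A πA M ℓ residue_surjective hℓM := rfl

theorem RS_π : (RS M ℓ A hℓM hA).π = πA := rfl

include hℓM in
theorem natCast_ne_zero : (M : kA) ≠ 0 := ES.natCast_ne_zero_residueField hℓM

/-- the count theorem -/
theorem sp_count (u : OO M ℓ A hℓM) (hu : resFk A πA M ℓ residue_surjective hℓM u ≠ 0)
    (D : Divisor Qb (FBar Qb M)) (hD : ∀ P, D P = P.ord (u : FBar Qb M))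
    (Q : Place kA (modularFunctionFieldFullC kA M)) :
    Finsupp.mapDomain (sp M ℓ A hℓM hgood hA) D Q =
      Q.ord (resFk A πA M ℓ residue_surjective hℓM u) :=
  Red.modularGlueRed_count A πA ℓ M residue_surjective hℓM (filtered M ℓ A hℓM hgood hA) u hu D hD Q

theorem spCompat :
    S27x.Spec.Inj.SpCompat (RS M ℓ A hℓM hA) (S27x.Spec.Disc.spD (sp M ℓ A hℓM hgood hA)) := by
  intro f hf hf1 E hE w
  exact sp_count M ℓ A hℓM hgood hA ⟨f, hf⟩
    (S27x.Spec.Inj.res_ne_zero_of_valuation_eq_one (RS M ℓ A hℓM hA) hf hf1) E hE w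

theorem sp_surjective : Function.Surjective (sp M ℓ A hℓM hgood hA) :=
  Red.modularGlueRed_surjective A πA ℓ M residue_surjective hℓM (filtered M ℓ A hℓM hgood hA)

theorem cartesian (V : Submodule Qb (FBar Qb M)) (hV : FiniteDimensional Qb V) :
    ((RS M ℓ A hℓM hA).lat V).FG :=
  haveI := hV
  fg_inf_OvVal A πA ℓ residue_surjective hℓM V _ (fun _ => Iff.rfl)

theorem isRed : IsPlaceReductionAlong A πA M (sp M ℓ A hℓM hgood hA) :=
  Red.isPlaceReductionAlong_of_count A πA ℓ M residue_surjective hℓM _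
    (sp_count M ℓ A hℓM hgood hA)

include hℓM in
theorem gen : PrincipalGeneratedByIntegral A πA M :=
  Red.principalGeneratedByIntegral A πA ℓ M residue_surjective hℓM

/-- **The geometric setting at a good level.** -/
def modSetting : GeoSetting A (OO M ℓ A hℓM) kA (modularFunctionFieldFullC kA M) where
  R := RS M ℓ A hℓM hA
  res_surj := resFk_surjective A πA M ℓ residue_surjective hℓM
  sp := sp M ℓ A hℓM hgood hA
  spCompat := spCompat M ℓ A hℓM hgood hA
  sp_surj := sp_surjective M ℓ A hℓM hgood hA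
  cart := cartesian M ℓ A hℓM hA
  g := genusFF Qb (FBar Qb M)
  rrF := RRBundleInst.rrBundle_FBar Qb M
  rrκ := RRBundleInst.rrBundle_Fk_residue_of_good M ℓ hℓM A hA hgood
  oo := CuspOo.ooPlace Qb M

/-! ### Inertia -/

/-- the image of the inertia group of `A` under the arithmetic Galois action -/
def inertiaS : Subgroup (SemilinearAut Qb (FBar Qb M)) :=
  (A.inertiaSubgroupIn ℚ).map (arithmeticGalois (modularFunctionFieldFull M))

theorem mem_inertiaS_of_mem {σ : Qb ≃ₐ[ℚ] Qb} (hσ : σ ∈ A.inertiaSubgroupIn ℚ) :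
    arithmeticGalois (modularFunctionFieldFull M) σ ∈ inertiaS M A :=
  ⟨σ, hσ, rfl⟩

theorem coe_inertiaS :
    (inertiaS M A : Set (SemilinearAut Qb (FBar Qb M))) =
      arithmeticGalois (L := Qb) (modularFunctionFieldFull M) ''
        (A.inertiaSubgroupIn ℚ : Set (Qb ≃ₐ[ℚ] Qb)) := rfl

/-- (GAL) on divisors, for the decomposition group -/
theorem mapDomain_sp_decomposition_smul (g : A.decompositionSubgroup ℚ)
    (D : Divisor Qb (FBar Qb M)) :
    Finsupp.mapDomain (sp M ℓ A hℓM hgood hA)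
        (arithmeticGalois (modularFunctionFieldFull M) (g : Qb ≃ₐ[ℚ] Qb) • D) =
      ES.coeffGaloisC kA M (MulSemiringAction.toRingAut (A.decompositionSubgroup ℚ) kA g) •
        Finsupp.mapDomain (sp M ℓ A hℓM hgood hA) D := by
  have hMk := natCast_ne_zero M ℓ A hℓM
  have hr := isRed M ℓ A hℓM hgood hA
  obtain ⟨P1, P2, P3, h12, -, -⟩ := ES.exists_three_values hMk hr
  exact ES.mapDomain_galois_smul_of_bounded hr (gen M ℓ A hℓM)
    (g : Qb ≃ₐ[ℚ] Qb)
    (MulSemiringAction.toRingHom (A.decompositionSubgroup ℚ) A g) (fun _ => rfl)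
    _ (fun _ => rfl)
    (Hecke.deg_eq_one_full Qb M)
    (FkBasics.deg_eq_one_Fk kA M hMk)
    (ES.effectiveBound_modular M) ⟨P1, P2, h12⟩ D

/-- (GAL) on places, for the decomposition group -/
theorem sp_decomposition_smul (g : A.decompositionSubgroup ℚ) (P : Place Qb (FBar Qb M)) :
    sp M ℓ A hℓM hgood hA (arithmeticGalois (modularFunctionFieldFull M) (g : Qb ≃ₐ[ℚ] Qb) • P) =
      ES.coeffGaloisC kA M (MulSemiringAction.toRingAut (A.decompositionSubgroup ℚ) kA g) •
        sp M ℓ A hℓM hgood hA P := by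
  have h := mapDomain_sp_decomposition_smul M ℓ A hℓM hgood hA g (Finsupp.single P 1)
  rw [SemilinearAut.smul_single, Finsupp.mapDomain_single, Finsupp.mapDomain_single,
    SemilinearAut.smul_single] at h
  exact (Finsupp.single_left_inj one_ne_zero).mp h

/-- inertia preserves the residue discs -/
theorem sp_inertia_smul {σ : Qb ≃ₐ[ℚ] Qb} (hσ : σ ∈ A.inertiaSubgroupIn ℚ)
    (P : Place Qb (FBar Qb M)) :
    sp M ℓ A hℓM hgood hA (arithmeticGalois (modularFunctionFieldFull M) σ • P) =
      sp M ℓ A hℓM hgood hA P := by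
  obtain ⟨g, hg, rfl⟩ := hσ
  have h1 : MulSemiringAction.toRingAut (A.decompositionSubgroup ℚ) kA g = 1 := hg
  have := sp_decomposition_smul M ℓ A hℓM hgood hA g P
  rw [h1, map_one, one_smul] at this
  exact this

/-- **The inertia data at a good level.** -/
def modInertia : InertiaData (modSetting M ℓ A hℓM hgood hA) where
  S := inertiaS M A
  base_mem := by
    rintro _ ⟨σ, hσ, rfl⟩ a ha
    exact GaussGalois.inertia_mem A hσ ha
  smul_mem := by
    rintro _ ⟨σ, hσ, rfl⟩ f hf
    exact GaussGalois.smul_mem_OvVal_of_mem_inertia A ℓ M hℓM hσ hf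
  res_smul := by
    rintro _ ⟨σ, hσ, rfl⟩ f hf
    exact GaussGalois.resFk_inertia_smul A ℓ M hℓM hσ hf
  sp_smul := by
    rintro _ ⟨σ, hσ, rfl⟩ Q
    exact sp_inertia_smul M ℓ A hℓM hgood hA hσ Q
  smul_oo := by
    rintro _ ⟨σ, -, rfl⟩
    exact CuspOo.smul_ooPlace σ

theorem modInertia_S : (modInertia M ℓ A hℓM hgood hA).S = inertiaS M A := rfl

/-! ### The reduction map on classes -/

/-- the reduction map `J₀(M)(ℚ̄) → J₀(M)(k_A)` -/
def red : JZero M →+ JZeroC kA M :=
  reductionPic0Along (sp M ℓ A hℓM hgood hA) (isRed M ℓ A hℓM hgood hA) (gen M ℓ A hℓM)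

/-- **The reduction map at a good level.** -/
def modRedMap : RedMap (modSetting M ℓ A hℓM hgood hA) where
  red := red M ℓ A hℓM hgood hA
  red_mk D := by
    show Pic0.mk (reductionDegZeroAlong (sp M ℓ A hℓM hgood hA) (isRed M ℓ A hℓM hgood hA).1 D) = _
    exact congrArg Pic0.mk (Subtype.ext rfl)

theorem modRedMap_red : (modRedMap M ℓ A hℓM hgood hA).red = red M ℓ A hℓM hgood hA := rfl

/-- inertia acts trivially after reduction -/
theorem red_inertia_smul {σ : Qb ≃ₐ[ℚ] Qb} (hσ : σ ∈ A.inertiaSubgroupIn ℚ) (x : JZero M) :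
    red M ℓ A hℓM hgood hA (σ • x) = red M ℓ A hℓM hgood hA x := by
  obtain ⟨D, rfl⟩ := Pic0.mk_surjective x
  rw [galois_smul_pic0_def, SemilinearAut.pic0_smul_mk]
  show Pic0.mk (reductionDegZeroAlong (sp M ℓ A hℓM hgood hA) (isRed M ℓ A hℓM hgood hA).1 _) =
    Pic0.mk (reductionDegZeroAlong (sp M ℓ A hℓM hgood hA) (isRed M ℓ A hℓM hgood hA).1 D)
  refine congrArg Pic0.mk (Subtype.ext ?_)
  show Finsupp.mapDomain (sp M ℓ A hℓM hgood hA)
      (arithmeticGalois (modularFunctionFieldFull M) σ • (D : Divisor Qb (FBar Qb M))) =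
    Finsupp.mapDomain (sp M ℓ A hℓM hgood hA) (D : Divisor Qb (FBar Qb M))
  obtain ⟨g, hg, rfl⟩ := hσ
  have h1 : MulSemiringAction.toRingAut (A.decompositionSubgroup ℚ) kA g = 1 := hg
  have := mapDomain_sp_decomposition_smul M ℓ A hℓM hgood hA g (D : Divisor Qb (FBar Qb M))
  rw [h1, map_one, one_smul] at this
  exact this

end Fermat.Agent.S19x.Geo.L1B
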